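/-
MAZ / brick T1B-U2 (FORMAL'), abstract algebra half (helper68): a group with a complete separated
filtration whose graded pieces are killed by `p` is uniquely `r`-divisible for every `r` prime to `p`.

Application (brick 739): `G = J¹(O_E)` (kernel of reduction of `Pic` of the nodal model over a complete
DVR `O_E` of residue characteristic `p`), `F n = ker (Pic X_O → Pic X_{O/𝔪^{n+1}})`; the graded pieces are
`κ`-vector groups (first-order deformations), the filtration is separated and complete by algebraisation.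

* `nsmul_bijective_of_filtration` : additive version;
* `existsUnique_nsmul_eq` : `∀ x, ∃! y, r • y = x`;
* `pow_bijective_of_filtration`, `existsUnique_pow_eq` : multiplicative versions (for `LinePic`-type groups).
-/
import Mathlib

set_option autoImplicit false

namespace Fermat.Agent.MAZ.Formal68

section Additive

variable {G : Type*} [AddCommGroup G]

/-- If `x ∈ F n` implies `p • x ∈ F (n+1)` and `r` is prime to `p`, then `r • x = 0` forces
`x ∈ F n` for all `n`. -/
theorem mem_all_of_nsmul_eq_zero (F : ℕ → AddSubgroup G) (hF0 : F 0 = ⊤) {p r : ℕ}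
    (hr : Nat.Coprime r p) (hgr : ∀ n, ∀ x ∈ F n, p • x ∈ F (n + 1)) {x : G} (hx : r • x = 0)
    (n : ℕ) : x ∈ F n := by
  induction n with
  | zero => rw [hF0]; exact AddSubgroup.mem_top x
  | succ n ih =>
    have hb : (r : ℤ) * Nat.gcdA r p + (p : ℤ) * Nat.gcdB r p = 1 := by
      have := Nat.gcd_eq_gcd_ab r p
      rw [hr] at this
      simpa using this.symm
    have hx' : x = (Nat.gcdB r p) • ((p : ℤ) • x) := by
      have h1 : x = ((r : ℤ) * Nat.gcdA r p + (p : ℤ) * Nat.gcdB r p) • x := by rw [hb, one_zsmul]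
      rw [add_smul, mul_comm (r : ℤ), mul_smul, natCast_zsmul, hx, smul_zero, zero_add,
        mul_comm (p : ℤ), mul_smul] at h1
      exact h1
    rw [hx']
    refine (F (n + 1)).zsmul_mem ?_ _
    rw [natCast_zsmul]
    exact hgr n x ih

/-- **Unique `r`-divisibility from a complete separated filtration with `p`-torsion graded pieces.** -/
theorem nsmul_bijective_of_filtration (F : ℕ → AddSubgroup G) (hF0 : F 0 = ⊤) {p r : ℕ}
    (hr : Nat.Coprime r p) (hgr : ∀ n, ∀ x ∈ F n, p • x ∈ F (n + 1))
    (hsep : ∀ x : G, (∀ n, x ∈ F n) → x = 0)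
    (hcomplete : ∀ s : ℕ → G, (∀ n, s (n + 1) - s n ∈ F n) → ∃ x, ∀ n, x - s n ∈ F n) :
    Function.Bijective fun x : G => r • x := by
  have hb : (r : ℤ) * Nat.gcdA r p + (p : ℤ) * Nat.gcdB r p = 1 := by
    have := Nat.gcd_eq_gcd_ab r p
    rw [hr] at this
    simpa using this.symm
  constructor
  · intro x y hxy
    have h0 : r • (x - y) = 0 := by
      rw [smul_sub]
      exact sub_eq_zero.2 hxy
    exact sub_eq_zero.1 (hsep _ (mem_all_of_nsmul_eq_zero F hF0 hr hgr h0))
  · intro y
    -- the approximating sequence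
    let u : ℤ := Nat.gcdA r p
    let v : ℤ := Nat.gcdB r p
    let s : ℕ → G := fun n => Nat.rec (0 : G) (fun _ sn => sn + u • (y - r • sn)) n
    have hs_succ : ∀ n, s (n + 1) = s n + u • (y - r • s n) := fun n => rfl
    have herr : ∀ n, y - r • s n ∈ F n := by
      intro n
      induction n with
      | zero => rw [hF0]; exact AddSubgroup.mem_top _
      | succ n ih =>
        have h1 : y - r • s (n + 1) = v • ((p : ℤ) • (y - r • s n)) := by
          rw [hs_succ]
          set e := y - r • s n with he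
          have h2 : y - r • (s n + u • e) = e - ((r : ℤ) * u) • e := by
            rw [smul_add, he, mul_smul, natCast_zsmul]
            abel
          rw [h2]
          have h3 : e = ((r : ℤ) * u + (p : ℤ) * v) • e := by rw [hb, one_zsmul]
          have h4 : e - ((r : ℤ) * u) • e = ((p : ℤ) * v) • e := by
            nth_rewrite 1 [h3]
            rw [add_smul]
            abel
          rw [h4, mul_comm, mul_smul]
        rw [h1]
        refine (F (n + 1)).zsmul_mem ?_ _
        rw [natCast_zsmul]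
        exact hgr n _ ih
    have hstep : ∀ n, s (n + 1) - s n ∈ F n := by
      intro n
      rw [hs_succ, add_sub_cancel_left]
      exact (F n).zsmul_mem (herr n) _
    obtain ⟨x, hx⟩ := hcomplete s hstep
    refine ⟨x, ?_⟩
    show r • x = y
    have hall : ∀ n, y - r • x ∈ F n := by
      intro n
      have h1 : y - r • x = (y - r • s n) - r • (x - s n) := by
        rw [smul_sub]
        abel
      rw [h1]
      exact (F n).sub_mem (herr n) ((F n).nsmul_mem (hx n) _)
    exact (sub_eq_zero.1 (hsep _ hall)).symm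

theorem existsUnique_nsmul_eq (F : ℕ → AddSubgroup G) (hF0 : F 0 = ⊤) {p r : ℕ}
    (hr : Nat.Coprime r p) (hgr : ∀ n, ∀ x ∈ F n, p • x ∈ F (n + 1))
    (hsep : ∀ x : G, (∀ n, x ∈ F n) → x = 0)
    (hcomplete : ∀ s : ℕ → G, (∀ n, s (n + 1) - s n ∈ F n) → ∃ x, ∀ n, x - s n ∈ F n)
    (x : G) : ∃! y : G, r • y = x := by
  obtain ⟨hinj, hsurj⟩ := nsmul_bijective_of_filtration F hF0 hr hgr hsep hcomplete
  obtain ⟨y, hy⟩ := hsurj x
  exact ⟨y, hy, fun z hz => hinj (hz.trans hy.symm)⟩

end Additive

section Multiplicative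

variable {G : Type*} [CommGroup G]

/-- Multiplicative version: `x ↦ x ^ r` is bijective. -/
theorem pow_bijective_of_filtration (F : ℕ → Subgroup G) (hF0 : F 0 = ⊤) {p r : ℕ}
    (hr : Nat.Coprime r p) (hgr : ∀ n, ∀ x ∈ F n, x ^ p ∈ F (n + 1))
    (hsep : ∀ x : G, (∀ n, x ∈ F n) → x = 1)
    (hcomplete : ∀ s : ℕ → G, (∀ n, s (n + 1) / s n ∈ F n) → ∃ x, ∀ n, x / s n ∈ F n) :
    Function.Bijective fun x : G => x ^ r := by
  have h := nsmul_bijective_of_filtration (G := Additive G)
    (fun n => (F n).toAddSubgroup) (by simp [hF0]) hr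
    (fun n x hx => hgr n (Additive.toMul x) hx)
    (fun x hx => hsep (Additive.toMul x) hx)
    (fun s hs => by
      obtain ⟨x, hx⟩ := hcomplete (fun n => Additive.toMul (s n)) hs
      exact ⟨Additive.ofMul x, hx⟩)
  exact h

theorem existsUnique_pow_eq (F : ℕ → Subgroup G) (hF0 : F 0 = ⊤) {p r : ℕ}
    (hr : Nat.Coprime r p) (hgr : ∀ n, ∀ x ∈ F n, x ^ p ∈ F (n + 1))
    (hsep : ∀ x : G, (∀ n, x ∈ F n) → x = 1)
    (hcomplete : ∀ s : ℕ → G, (∀ n, s (n + 1) / s n ∈ F n) → ∃ x, ∀ n, x / s n ∈ F n)
    (x : G) : ∃! y : G, y ^ r = x := by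
  obtain ⟨hinj, hsurj⟩ := pow_bijective_of_filtration F hF0 hr hgr hsep hcomplete
  obtain ⟨y, hy⟩ := hsurj x
  exact ⟨y, hy, fun z hz => hinj (hz.trans hy.symm)⟩

end Multiplicative

end Fermat.Agent.MAZ.Formal68
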